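import Fermat.Agent.MU.Lib.FFL.FB.FieldRoot
import Fermat.Agent.MU.Lib.FFL.Base
import Fermat.Agent.Lib.FrobDensity.Bridge

section MergeWrap_Lib_FFL_FB_FieldTeich -- from Lib/FFL/FB/FieldTeich.lean

set_option autoImplicit false
set_option linter.style.haveILetI false
set_option linter.unusedSectionVars false

namespace Fermat.Agent.FFL.FB

open Fermat.Agent.FFL Fermat.Agent.Cyclo Polynomial

local notation "Kb" => AlgebraicClosure ℚ
local notation "GK" => (AlgebraicClosure ℚ ≃ₐ[ℚ] AlgebraicClosure ℚ)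

variable {p : ℕ} {P : ValuationSubring Kb}

/-- Roots of unity of order prime to `p` are fixed by the inertia group. -/
theorem root_fixed_of_inertia (hp : p.Prime) (hP : P.LiesOverPrime p) {n : ℕ} (hn : ¬ p ∣ n)
    {ζ : Kb} (hζ : ζ ^ n = 1) {σ : GK} (hσ : σ ∈ P.inertiaSubgroupIn ℚ) : σ ζ = ζ := by
  have hn0 : n ≠ 0 := fun h => hn (h ▸ dvd_zero p)
  have hζP : ζ ∈ P := pow_eq_one_mem P hn0 hζ
  have hζ0 : ζ ≠ 0 := by
    intro h
    rw [h, zero_pow hn0] at hζ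
    exact zero_ne_one hζ
  have hζv : P.valuation ζ = 1 := by
    have h1 : P.valuation ζ ^ n = 1 := by rw [← map_pow, hζ, map_one]
    exact (pow_eq_one_iff_of_nonneg zero_le hn0).1 h1
  have h1 : σ ζ - ζ ∈ P.nonunits := inertia_sub_mem_nonunits P hσ hζP
  have h2 : σ ζ / ζ - 1 ∈ P.nonunits := by
    have h3 : σ ζ / ζ - 1 = (σ ζ - ζ) / ζ := by field_simp
    rw [h3, ValuationSubring.mem_nonunits_iff, map_div₀, hζv, div_one]
    exact (ValuationSubring.mem_nonunits_iff P).1 h1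
  have h4 : (σ ζ / ζ) ^ n = 1 := by
    rw [div_pow, ← map_pow, hζ, map_one, div_one]
  have h5 := eq_one_of_sub_one_mem_nonunits P hn0 h4 (natCast_not_mem_nonunits P hp hP hn) h2
  rwa [div_eq_one_iff_eq hζ0] at h5

/-- Every element of `ℚ̄` is fixed by a positive power of any given automorphism. -/
theorem exists_pow_smul_eq (τ : GK) (y : Kb) : ∃ n : ℕ, 0 < n ∧ (τ ^ n) y = y := by
  have hfin : (Set.range fun k : ℕ => (τ ^ k) y).Finite := by
    have halg : IsAlgebraic ℚ y := (AlgebraicClosure.isAlgebraic ℚ).isAlgebraic y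
    refine ((minpoly ℚ y).rootSet_finite Kb).subset ?_
    rintro _ ⟨k, rfl⟩
    rw [Polynomial.mem_rootSet]
    refine ⟨minpoly.ne_zero halg.isIntegral, ?_⟩
    rw [Polynomial.aeval_algHom_apply, minpoly.aeval, map_zero]
  obtain ⟨a, b, hab, heq⟩ : ∃ a b : ℕ, a < b ∧ (τ ^ a) y = (τ ^ b) y := by
    by_contra hcon
    push Not at hcon
    have hinj : Function.Injective (fun k : ℕ => (τ ^ k) y) := by
      intro a b hab
      by_contra hne
      rcases lt_or_gt_of_ne hne with h | h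
      · exact hcon a b h hab
      · exact hcon b a h hab.symm
    exact Set.infinite_range_of_injective hinj hfin
  refine ⟨b - a, Nat.sub_pos_of_lt hab, ?_⟩
  have h1 : (τ ^ b) y = (τ ^ a) ((τ ^ (b - a)) y) := by
    rw [← AlgEquiv.mul_apply, ← pow_add, Nat.add_sub_cancel' (le_of_lt hab)]
  rw [h1] at heq
  exact ((τ ^ a).injective heq).symm

theorem mem_of_decomp {σ : GK} (hσ : σ ∈ P.decompositionSubgroup ℚ) {x : Kb} (hx : x ∈ P) :
    σ x ∈ P := by
  rw [← P.valuation_le_one_iff, val_decomp hσ]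
  exact (P.valuation_le_one_iff x).2 hx

/-- `y ≡ z` implies `y ^ n ≡ z ^ n` modulo the maximal ideal. -/
theorem pow_sub_pow_mem_nonunits {y z : Kb} (hy : y ∈ P) (hz : z ∈ P)
    (h : y - z ∈ P.nonunits) (n : ℕ) : y ^ n - z ^ n ∈ P.nonunits := by
  rw [← geom_sum₂_mul]
  refine red_mul_mem_nonunits_left P ?_ h
  exact sum_mem (fun i _ => P.mul_mem _ _ (pow_mem hy _) (pow_mem hz _))

/-- `φ ^ k x ≡ x ^ (p ^ k)` for a Frobenius `φ` at `P`. -/
theorem frob_pow_sub_mem {φ : GK} (hφ : P.IsFrobeniusAt φ p) {x : Kb} (hx : x ∈ P) (k : ℕ) :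
    (φ ^ k) x - x ^ (p ^ k) ∈ P.nonunits := by
  have hφD : φ ∈ P.decompositionSubgroup ℚ := hφ.mem_decompositionSubgroup
  induction k with
  | zero =>
    simp only [pow_zero, pow_one, AlgEquiv.one_apply, sub_self]
    exact red_zero_mem_nonunits P
  | succ k ih =>
    have hk : (φ ^ k) ∈ P.decompositionSubgroup ℚ := Subgroup.pow_mem _ hφD k
    have hy : (φ ^ k) x ∈ P := mem_of_decomp hk hx
    have h1 : (φ ^ (k + 1)) x = φ ((φ ^ k) x) := by
      rw [pow_succ', AlgEquiv.mul_apply]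
    have h2 : x ^ (p ^ (k + 1)) = (x ^ (p ^ k)) ^ p := by
      rw [← pow_mul, pow_succ]
    rw [h1, h2]
    have h3 : φ ((φ ^ k) x) - ((φ ^ k) x) ^ p ∈ P.nonunits := frob_sub_pow_mem_nonunits P hφ hy
    have h4 : ((φ ^ k) x) ^ p - (x ^ (p ^ k)) ^ p ∈ P.nonunits :=
      pow_sub_pow_mem_nonunits hy (pow_mem hx _) ih p
    have h5 : φ ((φ ^ k) x) - (x ^ (p ^ k)) ^ p =
        (φ ((φ ^ k) x) - ((φ ^ k) x) ^ p) + (((φ ^ k) x) ^ p - (x ^ (p ^ k)) ^ p) := by ring
    rw [h5]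
    exact red_add_mem_nonunits P h3 h4

/-- The residue field of `P` is algebraic over `𝔽_p`: `x ^ (p ^ f) ≡ x` for some `f > 0`. -/
theorem exists_pow_sub_mem (hp : p.Prime) (hP : P.LiesOverPrime p) {x : Kb} (hx : x ∈ P) :
    ∃ f : ℕ, 0 < f ∧ x ^ (p ^ f) - x ∈ P.nonunits := by
  obtain ⟨φ, hφ, -, -⟩ := Fermat.Agent.FrobBridge.exists_isFrobeniusAt_of_liesOver P p hp hP
  obtain ⟨f, hf, hfix⟩ := exists_pow_smul_eq φ x
  refine ⟨f, hf, ?_⟩
  have h1 := frob_pow_sub_mem hφ hx f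
  rw [hfix] at h1
  have h2 := red_neg_mem_nonunits P h1
  rwa [neg_sub] at h2

/-- **F1 (Teichmüller)**: every `x ∈ P` is congruent modulo the maximal ideal of `P` to an element
`t` of the inertia ring; `t` is `0` or a root of unity of order prime to `p`. -/
theorem teichmuller (hp : p.Prime) (hP : P.LiesOverPrime p) {x : Kb} (hx : x ∈ P) :
    ∃ t : Kb, t ∈ inertiaRing P ∧ x - t ∈ P.nonunits ∧
      (t = 0 ∨ ∃ n : ℕ, ¬ p ∣ n ∧ t ^ n = 1) := by
  classical
  by_cases hxm : x ∈ P.nonunits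
  · exact ⟨0, (inertiaRing P).zero_mem, by rwa [sub_zero], Or.inl rfl⟩
  obtain ⟨f, hf, hxf⟩ := exists_pow_sub_mem hp hP hx
  have hxv : P.valuation x = 1 := by
    rw [ValuationSubring.mem_nonunits_iff, not_lt] at hxm
    exact le_antisymm ((P.valuation_le_one_iff x).2 hx) hxm
  set n := p ^ f - 1 with hn
  have hq1 : 1 < p ^ f := Nat.one_lt_pow (Nat.pos_iff_ne_zero.1 hf) hp.one_lt
  have hnpos : 0 < n := by omega
  have hnp : ¬ p ∣ n := by
    intro h
    have h1 : p ∣ p ^ f := dvd_pow_self p (Nat.pos_iff_ne_zero.1 hf)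
    have h2 : p ∣ p ^ f - n := Nat.dvd_sub h1 h
    have h3 : p ^ f - n = 1 := by omega
    rw [h3] at h2
    exact hp.one_lt.ne' (Nat.dvd_one.1 h2)
  -- `x ^ n - 1` is a nonunit
  have hxn : x ^ n - 1 ∈ P.nonunits := by
    have h1 : x ^ (p ^ f) - x = x * (x ^ n - 1) := by
      have h2 : p ^ f = n + 1 := by omega
      rw [h2, pow_succ]
      ring
    rw [h1, ValuationSubring.mem_nonunits_iff, map_mul, hxv, one_mul] at hxf
    exact (ValuationSubring.mem_nonunits_iff P).2 hxf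
  -- factor `x ^ n - 1`
  have hn0 : ((n : ℕ) : Kb) ≠ 0 := Nat.cast_ne_zero.2 hnpos.ne'
  have hNZ : NeZero ((n : ℕ) : Kb) := ⟨hn0⟩
  obtain ⟨ζ, hζ⟩ := HasEnoughRootsOfUnity.exists_primitiveRoot Kb n
  have hprod : x ^ n - 1 = ∏ μ ∈ nthRootsFinset n (1 : Kb), (x - μ) := by
    have h1 := hζ.pow_sub_pow_eq_prod_sub_mul x 1 hnpos
    simpa using h1
  have hex : ∃ μ ∈ nthRootsFinset n (1 : Kb), x - μ ∈ P.nonunits := by
    by_contra hcon
    push Not at hcon
    have hall : ∀ μ ∈ nthRootsFinset n (1 : Kb), P.valuation (x - μ) = 1 := by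
      intro μ hμ
      have hμn : μ ^ n = 1 := (mem_nthRootsFinset hnpos 1).1 hμ
      have hμP : μ ∈ P := pow_eq_one_mem P hnpos.ne' hμn
      have h1 := hcon μ hμ
      rw [ValuationSubring.mem_nonunits_iff, not_lt] at h1
      exact le_antisymm ((P.valuation_le_one_iff _).2 (sub_mem hx hμP)) h1
    have h2 : P.valuation (x ^ n - 1) = 1 := by
      rw [hprod, map_prod]
      exact Finset.prod_eq_one hall
    rw [ValuationSubring.mem_nonunits_iff, h2] at hxn
    exact lt_irrefl _ hxn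
  obtain ⟨μ, hμ, hxμ⟩ := hex
  have hμn : μ ^ n = 1 := (mem_nthRootsFinset hnpos 1).1 hμ
  exact ⟨μ, ⟨pow_eq_one_mem P hnpos.ne' hμn,
    fun σ hσ => root_fixed_of_inertia hp hP hnp hμn hσ⟩, hxμ, Or.inr ⟨n, hnp, hμn⟩⟩

/-- **F1**, short form. -/
theorem exists_inertiaRing_sub_mem (hp : p.Prime) (hP : P.LiesOverPrime p) {x : Kb}
    (hx : x ∈ P) : ∃ t : Kb, t ∈ inertiaRing P ∧ x - t ∈ P.nonunits := by
  obtain ⟨t, ht, hxt, -⟩ := teichmuller hp hP hx
  exact ⟨t, ht, hxt⟩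

/-- The residue field is perfect, with representatives in `R'`: every `x ∈ P` is congruent to a
`p`-th power of an element of the inertia ring. -/
theorem exists_inertiaRing_pow_sub_mem (hp : p.Prime) (hP : P.LiesOverPrime p) {x : Kb}
    (hx : x ∈ P) : ∃ t : Kb, t ∈ inertiaRing P ∧ x - t ^ p ∈ P.nonunits := by
  obtain ⟨f, hf, hxf⟩ := exists_pow_sub_mem hp hP hx
  obtain ⟨t, ht, hxt⟩ := exists_inertiaRing_sub_mem hp hP (pow_mem hx (p ^ (f - 1)))
  refine ⟨t, ht, ?_⟩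
  have h1 : (x ^ (p ^ (f - 1))) ^ p - t ^ p ∈ P.nonunits :=
    pow_sub_pow_mem_nonunits (pow_mem hx _) ht.1 hxt p
  have h2 : (x ^ (p ^ (f - 1))) ^ p = x ^ (p ^ f) := by
    rw [← pow_mul, ← pow_succ, Nat.sub_add_cancel hf]
  rw [h2] at h1
  have h3 : x - t ^ p = (x ^ (p ^ f) - t ^ p) - (x ^ (p ^ f) - x) := by ring
  rw [h3]
  exact red_sub_mem_nonunits P h1 hxf

end Fermat.Agent.FFL.FB
end MergeWrap_Lib_FFL_FB_FieldTeich
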